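/-
S56 (Taylor–Wiles primes), node [LOC-inf] (helper17, prefix `s56li_`): THE ARCHIMEDEAN LOCAL TERM.

`h⁰(G_∞, ad⁰ ρbar) = 1`: complex conjugation `c` acts on the plane `V` of `ρbar` with `C² = 1`,
`det C = -1` (the determinant is cyclotomic, `p` odd), hence on the trace-zero endomorphisms by
conjugation with a ONE-dimensional space of invariants, spanned by `C` itself.

* `s56li_trace_zero`, `s56li_not_scalar`, `s56li_ne_zero` : `C * C = 1`, `det C = -1`, `2 ≠ 0`
  ⟹ `trace C = 0`, `C` is not a scalar, `C ≠ 0`;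
* `s56li_inv`       : every trace-zero `A` commuting with `C` is `y • C`;
* `s56li_H0`        : the submodule `{A | trace A = 0 ∧ C * A = A * C}` of `End k V`;
  `s56li_H0_eq_span : … = k ∙ C`, `s56li_finrank_H0 : finrank = 1`;
* `s56li_det_conj`  : for `ρbar : ResidualGaloisRep k` with cyclotomic determinant (frozen shape
  `(GaloisRepAdic.ofResidualGaloisRep ρbar).DetIsCyclotomic p`), `p` odd:
  `det (ρbar.ρ complexConjugation) = -1`;
* `s56li_main`      : the two combined, in the frozen vocabulary.
-/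
import Mathlib
import Fermat.Agent.S56.Grp.Ad
import Fermat.Agent.MZ.F2.ConjCyc
import Fermat.Prelude.Def_GaloisRep_LocalConditions

set_option autoImplicit false
set_option linter.style.haveILetI false

namespace Fermat.Agent.S56

open Polynomial Module

section Abstract

variable {k : Type*} [Field k] {V : Type*} [AddCommGroup V] [Module k V]

/-- Cayley–Hamilton in rank two. -/
theorem s56li_cayley (h2 : finrank k V = 2) (C : Module.End k V) :
    C * C - LinearMap.trace k V C • C + LinearMap.det C • (1 : Module.End k V) = 0 := by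
  classical
  haveI : FiniteDimensional k V := FiniteDimensional.of_finrank_pos (by omega)
  let e := Module.finBasisOfFinrankEq k V h2
  have hch : C.charpoly = X ^ 2 - Polynomial.C (LinearMap.trace k V C) * X +
      Polynomial.C (LinearMap.det C) := by
    rw [← LinearMap.charpoly_toMatrix C e, Matrix.charpoly_fin_two,
      LinearMap.trace_eq_matrix_trace k e C, LinearMap.det_toMatrix e C]
  have h := LinearMap.aeval_self_charpoly C
  rw [hch] at h
  simp only [map_add, map_sub, map_mul, map_pow, aeval_X, aeval_C] at h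
  rw [sq, Algebra.algebraMap_eq_smul_one, Algebra.algebraMap_eq_smul_one, smul_mul_assoc,
    one_mul] at h
  exact h

variable (h2 : finrank k V = 2) (h2ne : (2 : k) ≠ 0) (C : Module.End k V) (hC : C * C = 1)
  (hdet : LinearMap.det C = -1)

include hC in
theorem s56li_ne_zero [Nontrivial V] : C ≠ 0 := by
  intro h
  rw [h, mul_zero] at hC
  exact zero_ne_one hC

include h2 hC hdet in
/-- `trace C = 0`. -/
theorem s56li_trace_zero : LinearMap.trace k V C = 0 := by
  haveI : FiniteDimensional k V := FiniteDimensional.of_finrank_pos (by omega)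
  haveI : Nontrivial V := Module.nontrivial_of_finrank_pos (R := k) (by omega)
  have h := s56li_cayley h2 C
  rw [hC, hdet, neg_smul, one_smul, sub_add_eq_add_sub, add_neg_cancel, zero_sub, neg_eq_zero] at h
  rcases smul_eq_zero.mp h with h0 | h0
  · exact h0
  · exact absurd h0 (s56li_ne_zero C hC)

include h2 h2ne hC hdet in
/-- `C` is not a scalar. -/
theorem s56li_not_scalar : ¬ ∃ c : k, ∀ x, C x = c • x := by
  haveI : FiniteDimensional k V := FiniteDimensional.of_finrank_pos (by omega)
  haveI : Nontrivial V := Module.nontrivial_of_finrank_pos (R := k) (by omega)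
  exact s56g_not_scalar_of_trace_zero h2 h2ne (s56li_ne_zero C hC) (s56li_trace_zero h2 C hC hdet)

include h2 h2ne hC hdet in
/-- **the invariants of conjugation by `C` on `ad⁰` are the line spanned by `C`.** -/
theorem s56li_inv (A : Module.End k V) (htr : LinearMap.trace k V A = 0) (hcomm : C * A = A * C) :
    ∃ y : k, A = y • C := by
  haveI : FiniteDimensional k V := FiniteDimensional.of_finrank_pos (by omega)
  obtain ⟨x, y, hxy⟩ := s56g_centralizer h2 (s56li_not_scalar h2 h2ne C hC hdet) hcomm
  refine ⟨y, ?_⟩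
  have h1 : LinearMap.trace k V A = 2 * x := by
    rw [hxy, map_add, map_smul, map_smul, LinearMap.trace_one, h2,
      s56li_trace_zero h2 C hC hdet, smul_zero, add_zero, smul_eq_mul, mul_comm]
    norm_num
  rw [htr] at h1
  have hx : x = 0 := by
    rcases mul_eq_zero.mp h1.symm with h | h
    · exact absurd h h2ne
    · exact h
  rw [hxy, hx, zero_smul, zero_add]

/-- `H⁰(⟨C⟩, ad⁰)`: trace-zero endomorphisms commuting with `C`. -/
def s56li_H0 (C : Module.End k V) : Submodule k (Module.End k V) where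
  carrier := {A | LinearMap.trace k V A = 0 ∧ C * A = A * C}
  zero_mem' := ⟨map_zero _, by rw [mul_zero, zero_mul]⟩
  add_mem' := by
    rintro A B ⟨hA1, hA2⟩ ⟨hB1, hB2⟩
    exact ⟨by rw [map_add, hA1, hB1, add_zero], by rw [mul_add, add_mul, hA2, hB2]⟩
  smul_mem' := by
    rintro a A ⟨hA1, hA2⟩
    exact ⟨by rw [map_smul, hA1, smul_zero], by rw [mul_smul_comm, smul_mul_assoc, hA2]⟩

theorem s56li_mem_H0 {C A : Module.End k V} :
    A ∈ s56li_H0 C ↔ LinearMap.trace k V A = 0 ∧ C * A = A * C := Iff.rfl

/-- The same invariants in the conjugation form `C * A * C⁻¹ = A` (with `C⁻¹ = C`). -/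
theorem s56li_mem_H0_conj {C A : Module.End k V} (hC : C * C = 1) :
    A ∈ s56li_H0 C ↔ LinearMap.trace k V A = 0 ∧ C * A * C = A := by
  rw [s56li_mem_H0]
  constructor
  · rintro ⟨h1, h2⟩
    exact ⟨h1, by rw [h2, mul_assoc, hC, mul_one]⟩
  · rintro ⟨h1, h2⟩
    refine ⟨h1, ?_⟩
    calc C * A = C * A * (C * C) := by rw [hC, mul_one]
      _ = (C * A * C) * C := by simp only [mul_assoc]
      _ = A * C := by rw [h2]

include h2 h2ne hC hdet in
theorem s56li_H0_eq_span : s56li_H0 C = Submodule.span k {C} := by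
  apply le_antisymm
  · rintro A ⟨hA1, hA2⟩
    obtain ⟨y, rfl⟩ := s56li_inv h2 h2ne C hC hdet A hA1 hA2
    exact Submodule.smul_mem _ _ (Submodule.subset_span rfl)
  · rw [Submodule.span_le]
    intro A hA
    rw [Set.mem_singleton_iff] at hA
    rw [hA]
    exact ⟨s56li_trace_zero h2 C hC hdet, rfl⟩

include h2 h2ne hC hdet in
/-- **`h⁰(G_∞, ad⁰) = 1`.** -/
theorem s56li_finrank_H0 : finrank k ↥(s56li_H0 C) = 1 := by
  haveI : Nontrivial V := Module.nontrivial_of_finrank_pos (R := k) (by omega)
  rw [s56li_H0_eq_span h2 h2ne C hC hdet]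
  exact finrank_span_singleton (s56li_ne_zero C hC)

end Abstract

section Frozen

local notation "GQ" => (AlgebraicClosure ℚ ≃ₐ[ℚ] AlgebraicClosure ℚ)

variable {k : Type} [Field k]

/-- **The determinant of complex conjugation is `-1`** when the determinant of `ρbar` is cyclotomic
(frozen shape), `p` odd being irrelevant here: `c ζ = ζ⁻¹ = ζ^(p-1)` on `μ_p`. -/
theorem s56li_det_conj (p : ℕ) [Fact p.Prime] (ρbar : ResidualGaloisRep k)
    (hdet : (GaloisRepAdic.ofResidualGaloisRep ρbar).DetIsCyclotomic p) :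
    LinearMap.det (ρbar.ρ complexConjugation) = -1 := by
  have hp : p.Prime := Fact.out
  obtain ⟨hpk, h⟩ := hdet
  -- `(p : k) = 0`
  have hp0 : (p : k) = 0 := by
    have : (p : k) ∈ IsLocalRing.maximalIdeal k := hpk
    rwa [IsLocalRing.maximalIdeal_eq_bot, Ideal.mem_bot] at this
  have h1 := h 1 complexConjugation (p - 1) (fun μ hμ => by
    rw [pow_one] at hμ
    rw [Fermat.Agent.JT3.cya_complexConjugation_rootsOfUnity hp.ne_zero hμ]
    have h2 : μ * μ ^ (p - 1) = 1 := by
      rw [← pow_succ', Nat.sub_add_cancel hp.one_le, hμ]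
    exact inv_eq_of_mul_eq_one_right h2)
  rw [pow_one, hp0, Ideal.span_singleton_zero, Ideal.mem_bot, sub_eq_zero] at h1
  have h3 : ((p - 1 : ℕ) : k) = -1 := by
    rw [Nat.cast_sub hp.one_le, hp0, Nat.cast_one, zero_sub]
  rw [← h3]
  exact h1

/-- **[LOC-inf] in the frozen vocabulary**: `h⁰(G_∞, ad⁰ ρbar) = 1`. -/
theorem s56li_main (p : ℕ) [Fact p.Prime] (h2ne : (2 : k) ≠ 0) (ρbar : ResidualGaloisRep k)
    (hdet : (GaloisRepAdic.ofResidualGaloisRep ρbar).DetIsCyclotomic p) :
    finrank k ↥(s56li_H0 (ρbar.ρ complexConjugation)) = 1 ∧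
      s56li_H0 (ρbar.ρ complexConjugation) = Submodule.span k {ρbar.ρ complexConjugation} ∧
      LinearMap.trace k ρbar.V (ρbar.ρ complexConjugation) = 0 := by
  have hC : ρbar.ρ complexConjugation * ρbar.ρ complexConjugation = 1 := by
    rw [← map_mul, complexConjugation_mul_self, map_one]
  have hd := s56li_det_conj p ρbar hdet
  exact ⟨s56li_finrank_H0 ρbar.finrank_eq h2ne _ hC hd,
    s56li_H0_eq_span ρbar.finrank_eq h2ne _ hC hd, s56li_trace_zero ρbar.finrank_eq _ hC hd⟩

end Frozen

end Fermat.Agent.S56
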